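/-
GATE-Z (S15, Mazur block) / node (NUM), leaf THETACONJ part 1 (helper10): **complex conjugation on
the field `Mer` of meromorphic functions on the upper half plane.**

* `negConj : ℍ → ℍ`, `τ ↦ -conj τ`;  `smul_negConj : γ • negConj τ = negConj (jConjSL γ • τ)`
  (`jConjSL γ = ε γ ε`, `ε = diag(-1, 1)`, the prelude's involution of `SL(2, ℤ)`);
* `conjHol : Hol →+* Hol`, `f ↦ conj ∘ f ∘ negConj` (an involutive ring automorphism, conjugate
  linear on constants), `conjMer : Mer →+* Mer` its extension to the fraction field;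
* `compM_conjMer : compM γ (conjMer h) = conjMer (compM (jConjSL γ) h)`;
* `conjMer_const`, `conjMer_conjMer`, `conjMer_injective`.
-/
import Mathlib
import Fermat.Agent.S24_helper82.HolOrd
import Fermat.Prelude.Def_ModularCurve_PeriodHomPair

set_option autoImplicit false

open UpperHalfPlane Complex ModularCurve.Period
open scoped MatrixGroups ComplexConjugate Manifold

noncomputable section

namespace Fermat.Agent.GZ.Num.ConjMer

open Fermat.Agent.S24_helper82

/-! ### the reflection `τ ↦ -conj τ` -/

/-- the reflection `τ ↦ -conj τ` of the upper half plane -/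
def negConj (τ : ℍ) : ℍ :=
  ⟨-(conj (τ : ℂ)), by
    rw [Complex.neg_im, Complex.conj_im, neg_neg]
    exact τ.im_pos⟩

@[simp] theorem coe_negConj (τ : ℍ) : ((negConj τ : ℍ) : ℂ) = -(conj (τ : ℂ)) := rfl

@[simp] theorem negConj_negConj (τ : ℍ) : negConj (negConj τ) = τ := by
  apply UpperHalfPlane.ext
  rw [coe_negConj, coe_negConj, map_neg, Complex.conj_conj, neg_neg]

/-- **the reflection intertwines `γ` and `ε γ ε`** -/
theorem smul_negConj (γ : SL(2, ℤ)) (τ : ℍ) : γ • negConj τ = negConj (jConjSL γ • τ) := by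
  apply UpperHalfPlane.ext
  rw [coe_negConj, coe_specialLinearGroup_apply, coe_specialLinearGroup_apply, coe_negConj]
  simp only [jConjSL_coe, jConjMat_apply_zero_zero, jConjMat_apply_zero_one,
    jConjMat_apply_one_zero, jConjMat_apply_one_one, algebraMap_int_eq, Int.coe_castRingHom,
    Complex.ofReal_neg, Complex.ofReal_intCast, map_div₀, map_add, map_mul,
    map_neg, map_intCast]
  rw [← neg_div]
  congr 1 <;> ring

theorem negConj_smul (γ : SL(2, ℤ)) (τ : ℍ) : negConj (γ • τ) = jConjSL γ • negConj τ := by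
  rw [smul_negConj, jConjSL_jConjSL]

/-! ### conjugation of holomorphic functions -/

theorem ofComplex_neg_conj {z : ℂ} (hz : 0 < z.im) :
    ofComplex (-(conj z)) = negConj (ofComplex z) := by
  have h1 : 0 < (-(conj z)).im := by
    rw [Complex.neg_im, Complex.conj_im, neg_neg]
    exact hz
  apply UpperHalfPlane.ext
  rw [ofComplex_apply_of_im_pos h1, coe_negConj, ofComplex_apply_of_im_pos hz]

theorem conj_comp_negConj_mem {f : ℍ → ℂ} (hf : f ∈ Hol) :
    (fun τ : ℍ => conj (f (negConj τ))) ∈ Hol := by
  intro τ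
  rw [UpperHalfPlane.mdifferentiableAt_iff]
  have hF : DifferentiableAt ℂ (f ∘ ofComplex) ((negConj τ : ℍ) : ℂ) :=
    UpperHalfPlane.mdifferentiableAt_iff.1 (hf (negConj τ))
  -- `G := (f ∘ ofComplex) ∘ neg` is differentiable at `conj τ`
  have hG : DifferentiableAt ℂ (fun z : ℂ => (f ∘ ofComplex) (-z)) (conj (τ : ℂ)) := by
    have h1 : DifferentiableAt ℂ (fun z : ℂ => -z) (conj (τ : ℂ)) := differentiableAt_id.neg
    have h2 : DifferentiableAt ℂ (f ∘ ofComplex) ((fun z : ℂ => -z) (conj (τ : ℂ))) := hF
    exact h2.comp _ h1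
  have hH := hG.conj_conj
  rw [Complex.conj_conj] at hH
  refine hH.congr_of_eventuallyEq ?_
  have hopen : IsOpen {z : ℂ | 0 < z.im} := isOpen_lt continuous_const Complex.continuous_im
  filter_upwards [hopen.mem_nhds τ.im_pos] with z hz
  show conj (f (negConj (ofComplex z))) = conj (f (ofComplex (-(conj z))))
  rw [ofComplex_neg_conj hz]

/-- **conjugation of holomorphic functions**: `f ↦ conj ∘ f ∘ (τ ↦ -conj τ)` -/
def conjHol : Hol →+* Hol where
  toFun f := ⟨fun τ => conj ((f : ℍ → ℂ) (negConj τ)), conj_comp_negConj_mem f.2⟩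
  map_one' := by
    apply Subtype.ext
    funext τ
    show conj (((1 : Hol) : ℍ → ℂ) (negConj τ)) = ((1 : Hol) : ℍ → ℂ) τ
    simp
  map_mul' f g := by
    apply Subtype.ext
    funext τ
    show conj (((f * g : Hol) : ℍ → ℂ) (negConj τ)) = _
    simp
  map_zero' := by
    apply Subtype.ext
    funext τ
    show conj (((0 : Hol) : ℍ → ℂ) (negConj τ)) = ((0 : Hol) : ℍ → ℂ) τ
    simp
  map_add' f g := by
    apply Subtype.ext
    funext τ
    show conj (((f + g : Hol) : ℍ → ℂ) (negConj τ)) = _
    simp

@[simp] theorem conjHol_apply (f : Hol) (τ : ℍ) :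
    (conjHol f : ℍ → ℂ) τ = conj ((f : ℍ → ℂ) (negConj τ)) := rfl

theorem conjHol_conjHol (f : Hol) : conjHol (conjHol f) = f := by
  apply Subtype.ext
  funext τ
  rw [conjHol_apply, conjHol_apply, negConj_negConj, Complex.conj_conj]

theorem conjHol_injective : Function.Injective conjHol := fun f g h => by
  rw [← conjHol_conjHol f, ← conjHol_conjHol g, h]

theorem conjHol_algebraMap (c : ℂ) : conjHol (algebraMap ℂ Hol c) = algebraMap ℂ Hol (conj c) := by
  apply Subtype.ext
  funext τ
  rfl

/-- conjugation intertwines the actions of `γ` and `ε γ ε` -/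
theorem compSL_conjHol (γ : SL(2, ℤ)) (f : Hol) :
    compSL γ (conjHol f) = conjHol (compSL (jConjSL γ) f) := by
  apply Subtype.ext
  funext τ
  rw [compSL_apply, conjHol_apply, conjHol_apply, compSL_apply, negConj_smul]

/-! ### conjugation of meromorphic functions -/

theorem algebraMap_comp_conjHol_injective :
    Function.Injective ((algebraMap Hol Mer).comp conjHol) :=
  (IsFractionRing.injective Hol Mer).comp conjHol_injective

/-- **conjugation of meromorphic functions** -/
def conjMer : Mer →+* Mer := IsFractionRing.lift algebraMap_comp_conjHol_injective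

@[simp] theorem conjMer_algebraMap (f : Hol) :
    conjMer (algebraMap Hol Mer f) = algebraMap Hol Mer (conjHol f) :=
  IsFractionRing.lift_algebraMap algebraMap_comp_conjHol_injective f

theorem conjMer_div (a b : Hol) :
    conjMer (algebraMap Hol Mer a / algebraMap Hol Mer b)
      = algebraMap Hol Mer (conjHol a) / algebraMap Hol Mer (conjHol b) := by
  rw [map_div₀, conjMer_algebraMap, conjMer_algebraMap]

theorem conjMer_const (c : ℂ) : conjMer (algebraMap ℂ Mer c) = algebraMap ℂ Mer (conj c) := by
  rw [IsScalarTower.algebraMap_apply ℂ Hol Mer, conjMer_algebraMap, conjHol_algebraMap,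
    ← IsScalarTower.algebraMap_apply ℂ Hol Mer]

theorem conjMer_conjMer (h : Mer) : conjMer (conjMer h) = h := by
  by_cases hh : h = 0
  · subst hh; simp
  obtain ⟨a, b, -, -, rfl⟩ := exists_div_eq h hh
  rw [conjMer_div, conjMer_div, conjHol_conjHol, conjHol_conjHol]

theorem conjMer_injective : Function.Injective conjMer := conjMer.injective

/-- **conjugation intertwines `compM γ` and `compM (ε γ ε)`** -/
theorem compM_conjMer (γ : SL(2, ℤ)) (h : Mer) :
    compM γ (conjMer h) = conjMer (compM (jConjSL γ) h) := by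
  by_cases hh : h = 0
  · subst hh; simp
  obtain ⟨a, b, -, -, rfl⟩ := exists_div_eq h hh
  rw [conjMer_div, compM_div, compM_div, conjMer_div, compSL_conjHol, compSL_conjHol]

end Fermat.Agent.GZ.Num.ConjMer
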