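/-
GATE-Z (S15, Mazur block) / node (NUM), leaf THETACONJ part 2 (helper10): **the realisation
`realize N : ℚ̄(X₀(N)) → Mer` intertwines complex conjugation `c ∈ G_ℚ` (coefficientwise on
`q`-expansions) with `conjMer`** (`h ↦ conj ∘ h ∘ (τ ↦ -conj τ)`):

  `realize_conj : realize N (arithmeticRingAut _ complexConjugation u) = conjMer (realize N u)`.

Proof: `conjMer ∘ realize ∘ c⁻¹` is a `ℚ̄`-algebra homomorphism (`iotaC (c x) = conj (iotaC x)`)
which agrees with `realize` on the generators `j(q^d)` (`c` fixes their rational coefficients and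
`conj (j (-conj τ)) = j τ` because the `q`-expansion of `j` has integral coefficients).
-/
import Mathlib
import Fermat.Agent.GZ.Num.ThetaConj.ConjMer
import Fermat.Agent.S24_helper82.Realize
import Fermat.Agent.GJ.J2.EigData
import Fermat.Prelude.Def_GaloisRep_ComplexConjugation

set_option autoImplicit false

open UpperHalfPlane Complex ModularCurve ModularCurve.Period
open scoped MatrixGroups ComplexConjugate

noncomputable section

namespace Fermat.Agent.GZ.Num.RealConj

open Fermat.Agent.S24 Fermat.Agent.S24_helper82 Fermat.Agent.S24_helper62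
open Fermat.Agent.GZ.Num.ConjMer Fermat.Agent.S28 Fermat.Agent.S28.CuspExp

/-! ### `j` has real `q`-coefficients -/

theorem qParam_negConj (z : ℍ) :
    Function.Periodic.qParam 1 ((negConj z : ℍ) : ℂ) = conj (Function.Periodic.qParam 1 (z : ℂ)) := by
  unfold Function.Periodic.qParam
  rw [← Complex.exp_conj, coe_negConj]
  congr 1
  simp only [map_div₀, map_mul, map_ofNat, Complex.conj_ofReal, Complex.conj_I, Complex.ofReal_one,
    map_one]
  ring

/-- **`j(-conj τ) = conj (j τ)`** -/
theorem jFun_negConj (z : ℍ) : jFun (negConj z) = conj (jFun z) := by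
  have h1 := hasSum_jFun (negConj z)
  have h2 := (hasSum_jFun z).map (starRingEnd ℂ) Complex.continuous_conj
  have h3 : (fun n : ℕ => ((PowerSeries.coeff n jNum : ℤ) : ℂ)
        * Function.Periodic.qParam 1 ((negConj z : ℍ) : ℂ) ^ n)
      = (starRingEnd ℂ) ∘ (fun n : ℕ => ((PowerSeries.coeff n jNum : ℤ) : ℂ)
        * Function.Periodic.qParam 1 (z : ℂ) ^ n) := by
    funext n
    rw [Function.comp_apply, map_mul, map_pow, map_intCast, qParam_negConj]
  rw [h3] at h1
  have h4 := h1.unique h2
  rw [map_mul, qParam_negConj] at h4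
  have hq : conj (Function.Periodic.qParam 1 (z : ℂ)) ≠ 0 := by
    rw [Ne, map_eq_zero]
    exact Function.Periodic.qParam_ne_zero _
  exact mul_right_cancel₀ hq h4

theorem dilate_negConj (d : ℕ) (hd : 0 < d) (z : ℍ) :
    dilate d hd (negConj z) = negConj (dilate d hd z) := by
  apply UpperHalfPlane.ext
  rw [coe_dilate, coe_negConj, coe_negConj, coe_dilate, map_mul, map_natCast]
  ring

theorem jDil_negConj (d : ℕ) (hd : 0 < d) (z : ℍ) :
    jDil d hd (negConj z) = conj (jDil d hd z) := by
  unfold jDil
  rw [dilate_negConj, jFun_negConj]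

/-- the functions `j(d τ)` are fixed by the conjugation of `Hol` -/
theorem conjHol_jDilHol (d : ℕ) (hd : 0 < d) : conjHol (jDilHol d hd) = jDilHol d hd := by
  apply Subtype.ext
  funext τ
  show conj (jDil d hd (negConj τ)) = jDil d hd τ
  rw [jDil_negConj, Complex.conj_conj]

/-! ### the embedding `ℚ̄ → ℂ` and complex conjugation -/

theorem iotaC_eq_complexEmbedding (x : Kbar) : iotaC x = complexEmbedding x := rfl

theorem iotaC_complexConjugation (x : Kbar) :
    iotaC (complexConjugation x) = conj (iotaC x) :=
  complexEmbedding_complexConjugation x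

/-! ### the twisted realisation -/

variable (N : ℕ) [NeZero N]

/-- `conjMer ∘ realize ∘ c` (`c = c⁻¹`) as a `ℚ̄`-algebra homomorphism -/
def twisted : FN N →ₐ[Kbar] Mer where
  __ := (conjMer.comp (realize N).toRingHom).comp
    ((arithmeticRingAut (modularFunctionFieldFull N) complexConjugation : FN N ≃+* FN N) :
      FN N →+* FN N)
  commutes' a := by
    show conjMer (realize N (arithmeticRingAut (modularFunctionFieldFull N) complexConjugation
      (algebraMap Kbar (FN N) a))) = algebraMap Kbar Mer a
    rw [arithmeticRingAut_algebraMap, AlgHom.commutes, algebraMap_Kbar_Mer, conjMer_const,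
      iotaC_complexConjugation, Complex.conj_conj, algebraMap_Kbar_Mer]

theorem twisted_apply (u : FN N) :
    twisted N u = conjMer (realize N
      (arithmeticRingAut (modularFunctionFieldFull N) complexConjugation u)) := rfl

theorem arithmeticRingAut_jdF (σ : Kbar ≃ₐ[ℚ] Kbar) (d : ℕ) [NeZero d] (hd : d ∣ N) :
    arithmeticRingAut (modularFunctionFieldFull N) σ (jdF N d hd) = jdF N d hd := by
  apply Subtype.ext
  show coeffMap (σ : Kbar →+* Kbar) (jdSeries d) = jdSeries d
  exact coeffMap_coeffEmb σ _

theorem twisted_eq : twisted N = realize N := by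
  apply algHom_ext_FN
  intro d _ hd
  rw [twisted_apply, arithmeticRingAut_jdF, realize_jdF, conjMer_algebraMap, conjHol_jDilHol]

/-- **the realisation intertwines complex conjugation and `conjMer`** -/
theorem realize_conj (u : FN N) :
    realize N (arithmeticRingAut (modularFunctionFieldFull N) complexConjugation u)
      = conjMer (realize N u) := by
  have h := DFunLike.congr_fun (twisted_eq N)
    (arithmeticRingAut (modularFunctionFieldFull N) complexConjugation u)
  rw [twisted_apply] at h
  have h2 : arithmeticRingAut (modularFunctionFieldFull N) complexConjugation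
      (arithmeticRingAut (modularFunctionFieldFull N) complexConjugation u) = u := by
    apply Subtype.ext
    show coeffMap ((complexConjugation : Kbar ≃ₐ[ℚ] Kbar) : Kbar →+* Kbar)
      (coeffMap ((complexConjugation : Kbar ≃ₐ[ℚ] Kbar) : Kbar →+* Kbar)
        (u : LaurentSeries Kbar)) = (u : LaurentSeries Kbar)
    rw [coeffMap_coeffMap]
    have h3 : ((complexConjugation : Kbar ≃ₐ[ℚ] Kbar) : Kbar →+* Kbar).comp
        ((complexConjugation : Kbar ≃ₐ[ℚ] Kbar) : Kbar →+* Kbar) = RingHom.id Kbar := by
      refine RingHom.ext fun x => ?_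
      show complexConjugation (complexConjugation x) = x
      have := DFunLike.congr_fun complexConjugation_mul_self x
      exact this
    rw [h3, coeffMap_id]
  rw [h2] at h
  exact h.symm

/-- the same for `realQ` -/
theorem realQ_conj (u : FN N) :
    Fermat.Agent.GJ.EigAsm.realQ N
        (arithmeticRingAut (modularFunctionFieldFull N) complexConjugation u)
      = conjMer (Fermat.Agent.GJ.EigAsm.realQ N u) :=
  realize_conj N u

end Fermat.Agent.GZ.Num.RealConj
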