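/-
GATE-Z (S15, Mazur block) / node (NUM), leaf THETACONJ part 3 = helper46 5867 (N3) (helper10):
**complex conjugation through the Kummer isomorphism `thetaQ`.**

`c = complexConjugation ∈ G_ℚ`, `ι γ = ε γ ε` (`jConjGamma0`, the prelude's `charInvolution`):

* `conjGood : GoodHom N m →+ GoodHom N m`, `ψ ↦ -(ψ ∘ ι)`  (`conjGood_conjGood`: an involution);
* `HasMult.conj`      : `h` has multiplier `ζ^ψ` ⟹ `conjMer h` has multiplier `ζ^{-(ψ∘ι)}`;
* `IsKumDatum.conj`   : a Kummer datum `(h, u)` for `ψ` gives the datum `(conjMer h, c • u)` for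
  `-(ψ ∘ ι)`;
* **`thetaQ_conj : thetaQ N m hζ (conjGood ψ) = gal N m complexConjugation (thetaQ N m hζ ψ)`**.
-/
import Mathlib
import Fermat.Agent.GZ.Num.ThetaConj.RealConj
import Fermat.Agent.GJ.J2.Tower.ThetaQ
import Fermat.Agent.GJ.Kum.KumType
import Fermat.Agent.GH.KummerEquivariant

set_option autoImplicit false

open UpperHalfPlane Complex CongruenceSubgroup ModularCurve ModularCurve.Period AlgebraicCurve
open scoped MatrixGroups ComplexConjugate

noncomputable section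

namespace Fermat.Agent.GZ.Num.ThetaConj

open Fermat.Agent.S24 Fermat.Agent.S24_helper82 Fermat.Agent.GJ.HeckeMer Fermat.Agent.GJ.KumCore
open Fermat.Agent.GJ.KumGroup Fermat.Agent.GJ.EigAsm Fermat.Agent.GJ.KumTower
open Fermat.Agent.GJ.Kum.KumType
open Fermat.Agent.GZ.Num.ConjMer Fermat.Agent.GZ.Num.RealConj

variable {N : ℕ} {m : ℕ} [NeZero m]

/-! ### the involution on characters -/

/-- `ψ ↦ -(ψ ∘ ι)` on all characters -/
def conjChar (N m : ℕ) :
    (Additive (Gamma0 N) →+ ZMod m) →+ (Additive (Gamma0 N) →+ ZMod m) :=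
  -((charInvolution N ℤ (ZMod m) : (Additive (Gamma0 N) →+ ZMod m) →ₗ[ℤ] _) :
      (Additive (Gamma0 N) →+ ZMod m) →+ (Additive (Gamma0 N) →+ ZMod m))

omit [NeZero m] in
theorem conjChar_apply (ψ : Additive (Gamma0 N) →+ ZMod m) (γ : Gamma0 N) :
    conjChar N m ψ (Additive.ofMul γ) = -ψ (Additive.ofMul (jConjGamma0 N γ)) := rfl

omit [NeZero m] in
theorem conjChar_conjChar (ψ : Additive (Gamma0 N) →+ ZMod m) :
    conjChar N m (conjChar N m ψ) = ψ := by
  refine AddMonoidHom.ext fun γ₀ => ?_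
  obtain ⟨γ, rfl⟩ : ∃ γ : Gamma0 N, Additive.ofMul γ = γ₀ := ⟨Additive.toMul γ₀, rfl⟩
  rw [conjChar_apply, conjChar_apply, neg_neg, jConjGamma0_jConjGamma0]

omit [NeZero m] in
theorem isGood_conjChar {ψ : Additive (Gamma0 N) →+ ZMod m} (h : IsGood N ψ) :
    IsGood N (conjChar N m ψ) := by
  refine ⟨fun γ hγ => ?_, fun g hg => ?_⟩
  · rw [conjChar_apply, neg_eq_zero]
    refine h.1 (jConjGamma0 N γ) ?_
    have htr : (((jConjGamma0 N γ : Gamma0 N) : SL(2, ℤ)) : Matrix (Fin 2) (Fin 2) ℤ).trace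
        = (((γ : Gamma0 N) : SL(2, ℤ)) : Matrix (Fin 2) (Fin 2) ℤ).trace := by
      rw [jConjGamma0_coe, jConjSL_coe, jConjMat_trace]
    rw [htr]
    exact hγ
  · rw [conjChar_apply, neg_eq_zero]
    exact h.2 _ ((jConjGamma0 N).isOfFinOrder hg)

/-- **the involution `ψ ↦ -(ψ ∘ ι)` on good characters** -/
def conjGood : GoodHom N m →+ GoodHom N m where
  toFun ψ := ⟨conjChar N m ψ.1, isGood_conjChar ψ.2⟩
  map_zero' := Subtype.ext (map_zero (conjChar N m))
  map_add' a b := Subtype.ext (map_add (conjChar N m) a.1 b.1)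

omit [NeZero m] in
@[simp] theorem coe_conjGood (ψ : GoodHom N m) :
    ((conjGood ψ : GoodHom N m) : Additive (Gamma0 N) →+ ZMod m) = conjChar N m ψ.1 := rfl

omit [NeZero m] in
theorem conjGood_conjGood (ψ : GoodHom N m) : conjGood (conjGood ψ) = ψ :=
  Subtype.ext (conjChar_conjChar ψ.1)

/-! ### multipliers and data -/

theorem conj_zmodPow {ζ : ℂ} (hζ : ζ ^ m = 1) (a : ZMod m) :
    conj (zmodPow ζ a) = zmodPow ζ (-a) := by
  have hnorm : ‖ζ‖ = 1 := Complex.norm_eq_one_of_pow_eq_one hζ (NeZero.ne m)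
  rw [zmodPow_neg hζ]
  unfold zmodPow
  rw [map_pow, ← Complex.inv_eq_conj hnorm, inv_pow]

/-- `h` has multiplier `ζ^ψ` ⟹ `conjMer h` has multiplier `ζ^{-(ψ ∘ ι)}` -/
theorem HasMult.conj {ζ : ℂ} (hζ : ζ ^ m = 1) {ψ : Additive (Gamma0 N) →+ ZMod m} {h : Mer}
    (H : HasMult ζ ψ h) : HasMult ζ (conjChar N m ψ) (conjMer h) := by
  intro γ
  rw [compM_conjMer, ← jConjGamma0_coe, H (jConjGamma0 N γ), map_mul, conjMer_const,
    conj_zmodPow hζ, conjChar_apply]

/-- **a Kummer datum for `ψ` gives a Kummer datum for `-(ψ ∘ ι)`** -/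
theorem IsKumDatum.conj [NeZero N] {ζ : ℂ} (hζ : ζ ^ m = 1) {ψ : Additive (Gamma0 N) →+ ZMod m}
    {h : Mer} {u : FK N} (D : IsKumDatum (realQ N) ζ ψ h u) :
    IsKumDatum (realQ N) ζ (conjChar N m ψ) (conjMer h)
      (arithmeticRingAut (modularFunctionFieldFull N) complexConjugation u) := by
  refine ⟨?_, HasMult.conj hζ D.2.1, ?_⟩
  · intro h0
    exact D.1 (conjMer_injective (h0.trans (map_zero conjMer).symm))
  · rw [realQ_conj, D.2.2, map_pow]

/-! ### the corollary -/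

variable [NeZero N]

/-- **complex conjugation through `thetaQ`**: `θ(-(ψ ∘ ι)) = c • θ(ψ)`. -/
theorem thetaQ_conj {ζ : ℂ} (hζ : IsPrimitiveRoot ζ m) (ψ : GoodHom N m) :
    thetaQ N m hζ (conjGood ψ) = gal N m complexConjugation (thetaQ N m hζ ψ) := by
  obtain ⟨u, hu⟩ := exists_rep (thetaQ N m hζ ψ)
  rw [hu, gal_mk]
  obtain ⟨h, D⟩ := (thetaQ_eq_iff hζ ψ u).1 hu
  rw [thetaQ_eq_iff]
  exact ⟨conjMer h, IsKumDatum.conj hζ.pow_eq_one D⟩

/-- the same, solved for the Galois action: `c • θ(ψ) = θ(-(ψ ∘ ι))` -/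
theorem gal_complexConjugation_thetaQ {ζ : ℂ} (hζ : IsPrimitiveRoot ζ m) (ψ : GoodHom N m) :
    gal N m complexConjugation (thetaQ N m hζ ψ) = thetaQ N m hζ (conjGood ψ) :=
  (thetaQ_conj hζ ψ).symm

/-- transported to characters: `θ⁻¹(c • x) = -(θ⁻¹ x ∘ ι)` -/
theorem thetaQ_symm_gal {ζ : ℂ} (hζ : IsPrimitiveRoot ζ m) (x : Additive (Kum Kb (FK N) m)) :
    (thetaQ N m hζ).symm (gal N m complexConjugation x) = conjGood ((thetaQ N m hζ).symm x) := by
  apply (thetaQ N m hζ).injective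
  rw [AddEquiv.apply_symm_apply, thetaQ_conj, AddEquiv.apply_symm_apply]

/-- the same on `J₀(N)(ℚ̄)[m] ⊆ JZero N` (through helper18's Kummer isomorphism):
`c • [θ ψ] = [θ (-(ψ ∘ ι))]` -/
theorem coe_kummerEquivFK_thetaQ_conj {ζ : ℂ} (hζ : IsPrimitiveRoot ζ m) (ψ : GoodHom N m) :
    ((Fermat.Agent.GH.TorsionCount.kummerEquivFK N m (thetaQ N m hζ (conjGood ψ)) :
        Pic0.torsion Kb (FK N) m) : JZero N)
      = complexConjugation •
        ((Fermat.Agent.GH.TorsionCount.kummerEquivFK N m (thetaQ N m hζ ψ) :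
          Pic0.torsion Kb (FK N) m) : JZero N) := by
  rw [thetaQ_conj, Fermat.Agent.GH.KummerEquivariant.coe_kummerEquivFK_gal]

end Fermat.Agent.GZ.Num.ThetaConj
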