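/-
GATE-Z (S15, Mazur block) / node (NUM), leaf THETALAT (helper10, asked by helper46 6031):
**complex conjugation through the Kummer map on the lattice.**

`Λ = Lam N = Hom_par(Γ₀(N), ℤ)`, `latI N` the character involution `Φ ↦ Φ ∘ (γ ↦ ε γ ε)`,
`thetaLat N m hζ : Λ →+ Additive (Kum_m(F_N))` (surjective, kernel `m Λ`):

* `redGoodLat_latI` : `(latI Φ mod m) = -(conjGood (Φ mod m))`;
* **`thetaLat_latI : thetaLat N m hζ (latI N Φ) = -(gal N m complexConjugation (thetaLat N m hζ Φ))`**;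
* `gal_complexConjugation_thetaLat : gal c (thetaLat Φ) = -(thetaLat (latI Φ))`
  (`c` acts on `Λ / m Λ ≅ J₀(N)[m]` as `-latI`);
* the composites with `kummerEquivFK` (into `Pic0.torsion ⊆ JZero N`) and with `kumTorsionBy`
  (into `torsionBy ℤ (JZero N) m`).
-/
import Mathlib
import Fermat.Agent.GZ.Num.ThetaConj.ThetaConj
import Fermat.Agent.GJ.J2.Tower.ThetaLat
import Fermat.Agent.GK.Tate.TraceInvol
import Fermat.Agent.GH.S32.KumEquivariant

set_option autoImplicit false

open UpperHalfPlane Complex CongruenceSubgroup ModularCurve ModularCurve.Period AlgebraicCurve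
open scoped MatrixGroups

noncomputable section

namespace Fermat.Agent.GZ.Num.ThetaLatConj

open Fermat.Agent.GJ.KumGroup Fermat.Agent.GJ.KumTower Fermat.Agent.GJ.Kum.KumType
open Fermat.Agent.GJ.J2.Lat Fermat.Agent.GJ.J2.LatMod Fermat.Agent.GK.TraceInvol
open Fermat.Agent.GZ.Num.ThetaConj

variable (N : ℕ) [NeZero N] (m : ℕ) [NeZero m] {ζ : ℂ}

omit [NeZero m] in
/-- reduction mod `m` turns `latI` into `-(conjGood ·)` -/
theorem redGoodLat_latI (Φ : Lam N) :
    redGoodLat N m (latI N Φ) = -(conjGood (redGoodLat N m Φ)) := by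
  apply Subtype.ext
  refine AddMonoidHom.ext fun γ₀ => ?_
  obtain ⟨γ, rfl⟩ : ∃ γ : Gamma0 N, Additive.ofMul γ = γ₀ := ⟨Additive.toMul γ₀, rfl⟩
  rw [AddSubgroup.coe_neg, AddMonoidHom.neg_apply, coe_conjGood, conjChar_apply, neg_neg,
    coe_redGoodLat, coe_redGoodLat, redP_apply, redP_apply]
  rfl

/-- **complex conjugation on the lattice side is `-latI`** -/
theorem thetaLat_latI (hζ : IsPrimitiveRoot ζ m) (Φ : Lam N) :
    thetaLat N m hζ (latI N Φ) = -(gal N m complexConjugation (thetaLat N m hζ Φ)) := by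
  rw [thetaLat_apply, thetaLat_apply, redGoodLat_latI, map_neg, thetaQ_conj]

theorem gal_complexConjugation_thetaLat (hζ : IsPrimitiveRoot ζ m) (Φ : Lam N) :
    gal N m complexConjugation (thetaLat N m hζ Φ) = -(thetaLat N m hζ (latI N Φ)) := by
  rw [thetaLat_latI, neg_neg]

/-- in the shape of helper46's `hc`: `cV (θ Φ) = -θ (latI Φ)` with `cV := gal c`, `θ := thetaLat` -/
theorem gal_complexConjugation_thetaLat' (hζ : IsPrimitiveRoot ζ m) (Φ : Lam N) :
    gal N m complexConjugation (thetaLat N m hζ Φ) = thetaLat N m hζ (-(latI N Φ)) := by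
  rw [map_neg, gal_complexConjugation_thetaLat]

/-- on `J₀(N)(ℚ̄)[m] ⊆ JZero N` through `kummerEquivFK` -/
theorem coe_kummerEquivFK_thetaLat_conj (hζ : IsPrimitiveRoot ζ m) (Φ : Lam N) :
    complexConjugation •
        ((Fermat.Agent.GH.TorsionCount.kummerEquivFK N m (thetaLat N m hζ Φ) :
          Pic0.torsion Kb (FK N) m) : JZero N)
      = -((Fermat.Agent.GH.TorsionCount.kummerEquivFK N m (thetaLat N m hζ (latI N Φ)) :
          Pic0.torsion Kb (FK N) m) : JZero N) := by
  rw [← Fermat.Agent.GH.KummerEquivariant.coe_kummerEquivFK_gal, gal_complexConjugation_thetaLat,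
    map_neg, AddSubgroup.coe_neg]

/-- on `torsionBy ℤ (JZero N) m` through helper83's `kumTorsionBy` -/
theorem coe_kumTorsionBy_thetaLat_conj (hζ : IsPrimitiveRoot ζ m) (Φ : Lam N) :
    complexConjugation •
        ((Fermat.Agent.GH.S32.KumEquivariant.kumTorsionBy N m (thetaLat N m hζ Φ) :
          ↥(Submodule.torsionBy ℤ (JZero N) (m : ℤ))) : JZero N)
      = -((Fermat.Agent.GH.S32.KumEquivariant.kumTorsionBy N m (thetaLat N m hζ (latI N Φ)) :
          ↥(Submodule.torsionBy ℤ (JZero N) (m : ℤ))) : JZero N) := by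
  rw [← Fermat.Agent.GH.S32.KumEquivariant.kumTorsionBy_gal, gal_complexConjugation_thetaLat,
    map_neg, Submodule.coe_neg]

end Fermat.Agent.GZ.Num.ThetaLatConj
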